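/-
helper6 — S18 [FF]-DEG, part 4: Stichtenoth 1.4.11, char-free, and `HasPrincipalDivisors`.

Standing hypothesis `hF : FFHyp K F` : some `x ∈ F` is transcendental over `K` with `[F : K(x)] < ∞`.
* `finiteResidue_all` : every place has finite residue field;
* `poleDiv hF y` : the pole divisor of `y`; `degree_poleDiv_le` (upper bound, 1.3.3);
* `finrank_le_degree_poleDiv` : if `L(0)` is finite-dimensional, `[F : K(y)] ≤ deg (y)_∞` (1.4.11);
* `degree_poleDiv_eq`, `hasPrincipalDivisors`.
-/
import Mathlib
import Fermat.Agent.S18.FFDeg6.Zeros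
import Fermat.Agent.S18.FFLSpace5

set_option autoImplicit false
set_option linter.style.haveILetI false

namespace Fermat.Agent.S18.FFDeg6

open AlgebraicCurve WithZero IsDedekindDomain Polynomial IntermediateField Module

variable {K F : Type*} [Field K] [Field F] [Algebra K F]

variable (K F) in
/-- `F/K` is a function field in one variable (weak form). -/
def FFHyp : Prop := ∃ x : F, Transcendental K x ∧ FiniteDimensional K⟮x⟯ F

theorem FFHyp.finiteDimensional (hF : FFHyp K F) {y : F} (hy : Transcendental K y) :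
    FiniteDimensional K⟮y⟯ F := by
  obtain ⟨x, _, hfin⟩ := hF
  exact Fermat.Agent.S24.FFPlaces.finiteDimensional_simple_of_transcendental hfin hy

theorem transcendental_of_adicValuation_lt_one (w : Place K F) {y : F} (hy0 : y ≠ 0)
    (h : w.adicValuation y < 1) : Transcendental K y := by
  intro halg
  have h0 := Fermat.Agent.S24.FFPlaces.ord_eq_zero_of_isAlgebraic w halg
  have hpos := (Fermat.Agent.S24.FFPlaces.ord_pos_iff w hy0).mpr h
  omega

/-- Every place has a finite residue field. -/
theorem finite_residue_all (hF : FFHyp K F) (w : Place K F) : Module.Finite K w.ResidueField := by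
  obtain ⟨π, hπ⟩ := IsDiscreteValuationRing.exists_irreducible w.toValuationSubring
  have hval := w.adicValuation_coe_irreducible hπ
  have hπ0 : (π : F) ≠ 0 := by simpa [ne_eq, ZeroMemClass.coe_eq_zero] using hπ.ne_zero
  have hlt : w.adicValuation (π : F) < 1 := by
    rw [hval, ← exp_zero]; exact exp_lt_exp.mpr (by norm_num)
  have htr := transcendental_of_adicValuation_lt_one w hπ0 hlt
  haveI := hF.finiteDimensional htr
  exact (residue_bound w htr (e := 1) le_rfl (by simpa using hval)).1

theorem finiteResidue_all (hF : FFHyp K F) (w : Place K F) : w.FiniteResidue :=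
  ⟨finite_residue_all hF w⟩

/-- Poles are finite in number (any `y`). -/
theorem finite_poles' (hF : FFHyp K F) (y : F) :
    {w : Place K F | 1 < w.adicValuation y}.Finite := by
  by_cases hy : Transcendental K y
  · haveI := hF.finiteDimensional hy
    exact finite_poles hy
  · rw [Transcendental, not_not] at hy
    convert Set.finite_empty
    ext w
    simp only [Set.mem_ofPred_eq, Set.mem_empty_iff_false, iff_false, not_lt]
    rcases eq_or_ne y 0 with rfl | hy0
    · simp
    · rw [w.adicValuation_eq_exp_neg_ord hy0,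
        Fermat.Agent.S24.FFPlaces.ord_eq_zero_of_isAlgebraic w hy]
      simp

/-- The pole divisor `(y)_∞`. -/
noncomputable def poleDiv (hF : FFHyp K F) (y : F) : Divisor K F :=
  Finsupp.onFinset (finite_poles' hF y).toFinset (fun w => max 0 (-(w.ord y))) (by
    intro w hw
    rw [Set.Finite.mem_toFinset, Set.mem_ofPred_eq]
    by_contra hle
    apply hw
    rw [not_lt] at hle
    rcases eq_or_ne y 0 with rfl | hy0
    · simp
    · rw [w.adicValuation_eq_exp_neg_ord hy0, ← exp_zero, exp_le_exp] at hle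
      exact max_eq_left (by omega))

@[simp]
theorem poleDiv_apply (hF : FFHyp K F) (y : F) (w : Place K F) :
    poleDiv hF y w = max 0 (-(w.ord y)) := rfl

theorem poleDiv_nonneg (hF : FFHyp K F) (y : F) : 0 ≤ poleDiv hF y := by
  intro w
  rw [poleDiv_apply]
  exact le_max_left _ _

theorem adicValuation_le_exp_poleDiv (hF : FFHyp K F) (y : F) (w : Place K F) :
    w.adicValuation y ≤ exp (poleDiv hF y w) := by
  rw [w.adicValuation_le_exp_iff, poleDiv_apply]
  rcases eq_or_ne y 0 with rfl | hy0
  · exact Or.inl rfl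
  · right
    have := le_max_right (0 : ℤ) (-(w.ord y))
    omega

theorem finrank_adjoin_inv (y : F) : finrank K⟮y⁻¹⟯ F = finrank K⟮y⟯ F :=
  congrArg (fun E : IntermediateField K F => finrank E F)
    (Fermat.Agent.S24.FFPlaces.adjoin_simple_inv y)

theorem transcendental_inv {y : F} (hy : Transcendental K y) : Transcendental K y⁻¹ :=
  fun h => hy (by simpa using h.inv)

/-- **Upper bound** `deg (y)_∞ ≤ [F : K(y)]`. -/
theorem degree_poleDiv_le (hF : FFHyp K F) {y : F} (hy : Transcendental K y) :
    Divisor.degree (poleDiv hF y) ≤ (finrank K⟮y⟯ F : ℤ) := by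
  have hy0 : y ≠ 0 := fun h => hy (h ▸ isAlgebraic_zero)
  have hinv := transcendental_inv hy
  haveI := hF.finiteDimensional hinv
  have h1 := sum_ord_mul_deg_le hinv (finite_poles' hF y).toFinset (fun w hw => by
    rw [Set.Finite.mem_toFinset, Set.mem_ofPred_eq] at hw
    rw [map_inv₀]
    exact inv_lt_one_of_one_lt₀ hw)
  rw [finrank_adjoin_inv] at h1
  rw [Fermat.Agent.S18.FFLSpace5.degree_eq_sum, poleDiv, Finsupp.onFinset_sum _ (by simp)]
  refine le_trans (le_of_eq ?_) (Int.ofNat_le.mpr h1)
  rw [Nat.cast_sum]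
  refine Finset.sum_congr rfl fun w _ => ?_
  rw [Nat.cast_mul, Int.toNat_eq_max, Place.ord_inv, max_comm]

theorem linearIndependent_gen_pow {y : F} (hy : Transcendental K y) (l : ℕ) :
    LinearIndependent K (fun i : Fin (l + 1) => (AdjoinSimple.gen K y) ^ (i : ℕ)) := by
  have hgen : Transcendental K (AdjoinSimple.gen K y) := by
    rintro ⟨p, hp0, hp⟩
    refine hy ⟨p, hp0, ?_⟩
    rw [← AdjoinSimple.coe_aeval_gen_apply, hp]
    rfl
  have hinj := transcendental_iff_injective.mp hgen
  have hmono : LinearIndependent K (fun i : Fin (l + 1) => (X : K[X]) ^ (i : ℕ)) := by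
    have := (Polynomial.basisMonomials K).linearIndependent.comp
      (fun i : Fin (l + 1) => (i : ℕ)) Fin.val_injective
    convert this using 1
    ext i : 1
    simp [Polynomial.coe_basisMonomials, monomial_one_right_eq_X_pow]
  have := hmono.map' (aeval (AdjoinSimple.gen K y)).toLinearMap (LinearMap.ker_eq_bot.mpr hinj)
  have h2 : (fun i : Fin (l + 1) => (AdjoinSimple.gen K y) ^ (i : ℕ))
      = (aeval (AdjoinSimple.gen K y)).toLinearMap ∘ fun i : Fin (l + 1) => (X : K[X]) ^ (i : ℕ) := by
    funext i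
    simp
  rw [h2]
  exact this

/-- The counting half of Stichtenoth 1.4.11 (abstract basis): with `B = (y)_∞` and
`C = ∑ (u_j)_∞`, `n * (l + 1) ≤ ℓ(l B + C)`. -/
theorem lower_count_aux (hF : FFHyp K F) {y : F} (hy : Transcendental K y) {n : ℕ}
    (u : Basis (Fin n) K⟮y⟯ F) (l : ℕ)
    (hfin : Module.Finite K
      (riemannRochSpace ((l : ℤ) • poleDiv hF y + ∑ j, poleDiv hF (u j)))) :
    n * (l + 1) ≤
      finrank K (riemannRochSpace ((l : ℤ) • poleDiv hF y + ∑ j, poleDiv hF (u j))) := by
  classical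
  have hli := linearIndependent_smul (linearIndependent_gen_pow hy l) u.linearIndependent
  simp only [Algebra.smul_def, IntermediateField.algebraMap_apply, SubmonoidClass.coe_pow,
    AdjoinSimple.coe_gen] at hli
  have hli2 : LinearIndependent K (fun p : Fin (l + 1) × Fin n => y ^ (p.1 : ℕ) * u p.2) := hli
  set G : Divisor K F := (l : ℤ) • poleDiv hF y + ∑ j, poleDiv hF (u j) with hG
  have hmem : ∀ p : Fin (l + 1) × Fin n, y ^ (p.1 : ℕ) * u p.2 ∈ riemannRochSpace G := by
    intro p w
    rw [map_mul, map_pow]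
    have hB := adicValuation_le_exp_poleDiv hF y w
    have hC := adicValuation_le_exp_poleDiv hF (u p.2) w
    have hB0 : (0 : ℤ) ≤ poleDiv hF y w := Finsupp.le_def.mp (poleDiv_nonneg hF y) w
    have hGw : G w = (l : ℤ) * poleDiv hF y w + ∑ j, poleDiv hF (u j) w := by
      rw [hG, Finsupp.add_apply, Finsupp.smul_apply, smul_eq_mul, Finsupp.finsetSum_apply]
    have hCle : poleDiv hF (u p.2) w ≤ ∑ j, poleDiv hF (u j) w :=
      Finset.single_le_sum (f := fun j => poleDiv hF (u j) w)
        (fun j _ => Finsupp.le_def.mp (poleDiv_nonneg hF (u j)) w) (Finset.mem_univ p.2)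
    calc w.adicValuation y ^ (p.1 : ℕ) * w.adicValuation (u p.2)
        ≤ exp (poleDiv hF y w) ^ (p.1 : ℕ) * exp (poleDiv hF (u p.2) w) :=
          mul_le_mul' (pow_le_pow_left₀ zero_le hB _) hC
      _ = exp ((p.1 : ℕ) * poleDiv hF y w + poleDiv hF (u p.2) w) := by
          rw [← exp_nsmul, ← exp_add, nsmul_eq_mul]
      _ ≤ exp (G w) := by
          rw [exp_le_exp, hGw]
          have hp : ((p.1 : ℕ) : ℤ) ≤ l := by
            have := p.1.2
            omega
          nlinarith
  let g : Fin (l + 1) × Fin n → riemannRochSpace G := fun p => ⟨_, hmem p⟩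
  have hli' : LinearIndependent K g := by
    apply LinearIndependent.of_comp (riemannRochSpace G).subtype
    exact hli2
  haveI := hfin
  have := hli'.fintype_card_le_finrank
  rw [Fintype.card_prod, Fintype.card_fin, Fintype.card_fin] at this
  rw [mul_comm]
  exact this

/-- **Lower bound** (Stichtenoth 1.4.11): if `L(0)` is finite-dimensional then
`[F : K(y)] ≤ deg (y)_∞`. -/
theorem finrank_le_degree_poleDiv (hF : FFHyp K F)
    (h0 : Module.Finite K (riemannRochSpace (0 : Divisor K F))) {y : F}
    (hy : Transcendental K y) :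
    (finrank K⟮y⟯ F : ℤ) ≤ Divisor.degree (poleDiv hF y) := by
  classical
  haveI := hF.finiteDimensional hy
  obtain ⟨n, ⟨u⟩⟩ : ∃ n, Nonempty (Basis (Fin n) K⟮y⟯ F) := ⟨_, ⟨Module.finBasis K⟮y⟯ F⟩⟩
  have hn : finrank K⟮y⟯ F = n := by rw [finrank_eq_card_basis u, Fintype.card_fin]
  rw [hn]
  have hC0 : (0 : Divisor K F) ≤ ∑ j, poleDiv hF (u j) :=
    Finset.sum_nonneg fun j _ => poleDiv_nonneg hF _
  have hB0 : (0 : Divisor K F) ≤ poleDiv hF y := poleDiv_nonneg hF y
  have hres := finiteResidue_all hF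
  have hdegB : 0 ≤ Divisor.degree (poleDiv hF y) :=
    Fermat.Agent.S18.FFLSpace5.degree_nonneg hB0
  have hdegC : 0 ≤ Divisor.degree (∑ j, poleDiv hF (u j)) :=
    Fermat.Agent.S18.FFLSpace5.degree_nonneg hC0
  have key : ∀ l : ℕ, (n : ℤ) * (l + 1) ≤
      finrank K (riemannRochSpace (0 : Divisor K F)) + l * Divisor.degree (poleDiv hF y)
        + Divisor.degree (∑ j, poleDiv hF (u j)) := by
    intro l
    obtain ⟨hfin, hle⟩ := Fermat.Agent.S18.FFLSpace5.finite_and_finrank_le_of_finite_zero hres h0
      ((l : ℤ) • poleDiv hF y + ∑ j, poleDiv hF (u j))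
    have h1 := lower_count_aux hF hy u l hfin
    have hnonneg : (0 : Divisor K F) ≤ (l : ℤ) • poleDiv hF y + ∑ j, poleDiv hF (u j) :=
      add_nonneg (smul_nonneg (by positivity) hB0) hC0
    rw [sup_eq_left.mpr hnonneg, map_add, map_zsmul, smul_eq_mul] at hle
    have h2 : ((n * (l + 1) : ℕ) : ℤ) ≤
        finrank K (riemannRochSpace ((l : ℤ) • poleDiv hF y + ∑ j, poleDiv hF (u j))) := by
      exact_mod_cast h1
    push_cast at h2
    linarith
  by_contra hlt
  rw [not_le] at hlt
  set L : ℕ := finrank K (riemannRochSpace (0 : Divisor K F)) +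
    (Divisor.degree (∑ j, poleDiv hF (u j))).toNat with hL
  have hLcast : (L : ℤ) = finrank K (riemannRochSpace (0 : Divisor K F)) +
      Divisor.degree (∑ j, poleDiv hF (u j)) := by
    rw [hL, Nat.cast_add, Int.toNat_of_nonneg hdegC]
  have hk := key L
  have hL0 : (0 : ℤ) ≤ L := by positivity
  have hprod : (0 : ℤ) ≤ (L : ℤ) * ((n : ℤ) - 1 - Divisor.degree (poleDiv hF y)) :=
    mul_nonneg hL0 (by omega)
  nlinarith

/-- **Stichtenoth 1.4.11**: `deg (y)_∞ = [F : K(y)]`. -/
theorem degree_poleDiv_eq (hF : FFHyp K F)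
    (h0 : Module.Finite K (riemannRochSpace (0 : Divisor K F))) {y : F}
    (hy : Transcendental K y) :
    Divisor.degree (poleDiv hF y) = (finrank K⟮y⟯ F : ℤ) :=
  le_antisymm (degree_poleDiv_le hF hy) (finrank_le_degree_poleDiv hF h0 hy)

theorem poleDiv_eq_zero_of_isAlgebraic (hF : FFHyp K F) {y : F} (hy : IsAlgebraic K y) :
    poleDiv hF y = 0 := by
  ext w
  rw [poleDiv_apply, Fermat.Agent.S24.FFPlaces.ord_eq_zero_of_isAlgebraic w hy]
  simp

/-- The divisor of `f`: `(f)_0 - (f)_∞`. -/
noncomputable def divisorOf (hF : FFHyp K F) (f : F) : Divisor K F :=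
  poleDiv hF f⁻¹ - poleDiv hF f

theorem divisorOf_apply (hF : FFHyp K F) (f : F) (v : Place K F) :
    divisorOf hF f v = v.ord f := by
  rw [divisorOf, Finsupp.sub_apply, poleDiv_apply, poleDiv_apply, Place.ord_inv, neg_neg]
  rcases le_total 0 (v.ord f) with h | h
  · rw [max_eq_right h, max_eq_left (by omega)]; ring
  · rw [max_eq_left h, max_eq_right (by omega)]; ring

theorem degree_divisorOf (hF : FFHyp K F)
    (h0 : Module.Finite K (riemannRochSpace (0 : Divisor K F))) (f : F) :
    Divisor.degree (divisorOf hF f) = 0 := by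
  rw [divisorOf, map_sub]
  by_cases hy : Transcendental K f
  · rw [degree_poleDiv_eq hF h0 hy, degree_poleDiv_eq hF h0 (transcendental_inv hy),
      finrank_adjoin_inv, sub_self]
  · rw [Transcendental, not_not] at hy
    rw [poleDiv_eq_zero_of_isAlgebraic hF hy, poleDiv_eq_zero_of_isAlgebraic hF hy.inv, map_zero,
      sub_self]

/-- **`HasPrincipalDivisors`, char-free**: from one transcendental `x` with `[F : K(x)] < ∞` and
finite-dimensionality of `L(0)`. -/
theorem hasPrincipalDivisors (hF : FFHyp K F)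
    (h0 : Module.Finite K (riemannRochSpace (0 : Divisor K F))) : HasPrincipalDivisors K F :=
  ⟨fun f _ => ⟨divisorOf hF f, divisorOf_apply hF f, degree_divisorOf hF h0 f⟩⟩

end Fermat.Agent.S18.FFDeg6
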