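/-
helper6 — S18 [FF]-DEG, part 5: the `[FF]` facts consumed by helper12's `Riemann12`
(`FFFacts K F`) and convenience forms of the `L(0)` hypothesis.

Inputs: `hF : FFHyp K F` (some `x` transcendental with `[F : K(x)] < ∞`) and
`h0 : Module.Finite K (riemannRochSpace 0)` (e.g. from "pole-free ⇒ constant").
-/
import Mathlib
import Fermat.Agent.S18.FFDeg6.Degree
import Fermat.Agent.S18.Riemann12

set_option autoImplicit false
set_option linter.style.haveILetI false

namespace Fermat.Agent.S18.FFDeg6

open AlgebraicCurve WithZero IntermediateField Module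

variable {K F : Type*} [Field K] [Field F] [Algebra K F]

/-- `L(0)` is finite-dimensional as soon as pole-free elements are constants. -/
theorem finite_zero_of_const
    (hconst : ∀ y : F, y ∈ riemannRochSpace (0 : Divisor K F) → y ∈ (algebraMap K F).range) :
    Module.Finite K (riemannRochSpace (0 : Divisor K F)) := by
  have hle : riemannRochSpace (0 : Divisor K F) ≤ Submodule.span K {(1 : F)} := by
    intro y hy
    obtain ⟨c, rfl⟩ := hconst y hy
    rw [Submodule.mem_span_singleton]
    exact ⟨c, by rw [Algebra.smul_def, mul_one]⟩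
  haveI : Module.Finite K (Submodule.span K {(1 : F)}) :=
    Module.Finite.span_of_finite K (Set.finite_singleton _)
  exact Module.Finite.of_injective (Submodule.inclusion hle) (Submodule.inclusion_injective hle)

theorem ell_eq_finrank (G : Divisor K F) :
    Fermat.Agent.S18.Riemann12.ell G = finrank K (riemannRochSpace G) :=
  congrArg (fun S : Submodule K F => finrank K S)
    (Fermat.Agent.S18.Riemann12.LSpace_eq_riemannRochSpace G)

/-- The `[FF]` facts of `Riemann12`, char-free. -/
theorem ffFacts (hF : FFHyp K F)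
    (h0 : Module.Finite K (riemannRochSpace (0 : Divisor K F))) :
    letI := hasPrincipalDivisors hF h0
    Fermat.Agent.S18.Riemann12.FFFacts K F := by
  classical
  letI := hasPrincipalDivisors hF h0
  obtain ⟨x, hx, hfin⟩ := id hF
  haveI := hfin
  obtain ⟨n, ⟨u⟩⟩ : ∃ n, Nonempty (Basis (Fin n) K⟮x⟯ F) := ⟨_, ⟨Module.finBasis K⟮x⟯ F⟩⟩
  have hn : finrank K⟮x⟯ F = n := by rw [finrank_eq_card_basis u, Fintype.card_fin]
  have hnpos : 0 < n := by rw [← hn]; exact finrank_pos
  have hres := finiteResidue_all hF
  refine ⟨finite_residue_all hF, ?_, poleDiv hF x, ∑ j, poleDiv hF (u j), ?_, ?_⟩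
  · rw [Fermat.Agent.S18.Riemann12.LSpace_eq_riemannRochSpace]
    exact h0
  · rw [degree_poleDiv_eq hF h0 hx, hn]
    exact_mod_cast hnpos
  · intro r
    have hfinr := (Fermat.Agent.S18.FFLSpace5.finite_and_finrank_le_of_finite_zero hres h0
      ((r : ℤ) • poleDiv hF x + ∑ j, poleDiv hF (u j))).1
    have h1 := lower_count_aux hF hx u r hfinr
    rw [ell_eq_finrank, degree_poleDiv_eq hF h0 hx, hn]
    have h2 : ((n * (r + 1) : ℕ) : ℤ) ≤
        finrank K (riemannRochSpace ((r : ℤ) • poleDiv hF x + ∑ j, poleDiv hF (u j))) := by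
      exact_mod_cast h1
    push_cast at h2
    linarith

end Fermat.Agent.S18.FFDeg6
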