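/-
helper6 — S18 [FF]-DEG, part 1: weak approximation for finitely many Prelude places.

`exists_approx` : for a finite set `S` of places of `F/K`, targets `y w ∈ F` and a bound `r : ℤ`
there is `z : F` with `w.adicValuation (z - y w) ≤ exp (-r)` for all `w ∈ S`.
Char-free; no completeness; via Mathlib's `AbsoluteValue.exists_one_lt_lt_one_pi_of_not_isEquiv`.
-/
import Mathlib
import Fermat.Prelude.Def_AlgebraicCurve_DivisorClassGroup
import Fermat.Prelude.Def_AlgebraicCurve_Repartitions
import Fermat.Agent.S24.FFPlaces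

set_option autoImplicit false

namespace Fermat.Agent.S18.FFDeg6

open AlgebraicCurve WithZero IsDedekindDomain
open scoped NNReal

variable {K F : Type*} [Field K] [Field F] [Algebra K F]

/-- The real absolute value `2 ^ (-ord_w)` attached to a place. -/
noncomputable def pabv (w : Place K F) : AbsoluteValue F ℝ :=
  w.heightOneSpectrum.adicAbv (K := F) (b := 2) (by norm_num)

theorem pabv_apply (w : Place K F) (x : F) :
    pabv w x = ((WithZeroMulInt.toNNReal (e := 2) (by norm_num) (w.adicValuation x) : ℝ≥0) : ℝ) :=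
  rfl

theorem pabv_le_iff (w : Place K F) (x y : F) :
    pabv w x ≤ pabv w y ↔ w.adicValuation x ≤ w.adicValuation y := by
  rw [pabv_apply, pabv_apply, NNReal.coe_le_coe]
  exact (WithZeroMulInt.toNNReal_strictMono (e := 2) (by norm_num)).le_iff_le

theorem pabv_lt_iff (w : Place K F) (x y : F) :
    pabv w x < pabv w y ↔ w.adicValuation x < w.adicValuation y := by
  rw [pabv_apply, pabv_apply, NNReal.coe_lt_coe]
  exact (WithZeroMulInt.toNNReal_strictMono (e := 2) (by norm_num)).lt_iff_lt

theorem pabv_lt_one_iff (w : Place K F) (x : F) :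
    pabv w x < 1 ↔ w.adicValuation x < 1 := by
  have := pabv_lt_iff w x 1
  rwa [map_one, map_one] at this

theorem one_lt_pabv_iff (w : Place K F) (x : F) :
    1 < pabv w x ↔ 1 < w.adicValuation x := by
  have := pabv_lt_iff w 1 x
  rwa [map_one, map_one] at this

theorem pabv_le_one_iff (w : Place K F) (x : F) :
    pabv w x ≤ 1 ↔ x ∈ w.toValuationSubring := by
  have := pabv_le_iff w x 1
  rw [map_one, map_one] at this
  rw [this, Fermat.Agent.S24.FFPlaces.adicValuation_le_one_iff]

theorem pabv_isNontrivial (w : Place K F) : (pabv w).IsNontrivial := by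
  obtain ⟨π, hπ⟩ := IsDiscreteValuationRing.exists_irreducible w.toValuationSubring
  refine ⟨(π : F), ?_, ?_⟩
  · simpa [ne_eq, ZeroMemClass.coe_eq_zero] using hπ.ne_zero
  · have h1 : pabv w (π : F) < 1 := by
      rw [pabv_lt_one_iff, w.adicValuation_coe_irreducible hπ]
      rw [← exp_zero]
      exact exp_lt_exp.mpr (by norm_num)
    exact h1.ne

theorem eq_of_pabv_isEquiv {w w' : Place K F} (h : (pabv w).IsEquiv (pabv w')) : w = w' := by
  apply Place.ext
  ext x
  rw [← pabv_le_one_iff, ← pabv_le_one_iff]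
  have := h x 1
  rwa [map_one, map_one] at this

/-- Separating elements: for `w ∈ S` there is `a` with `|a|_w > 1` and `|a|_{w'} < 1` for all the
other `w' ∈ S`. -/
theorem exists_separating (S : Finset (Place K F)) (w : Place K F) (hw : w ∈ S) :
    ∃ a : F, 1 < w.adicValuation a ∧ ∀ w' ∈ S, w' ≠ w → w'.adicValuation a < 1 := by
  classical
  let v : {w // w ∈ S} → AbsoluteValue F ℝ := fun i => pabv i.1
  have hnt : ∀ i, (v i).IsNontrivial := fun i => pabv_isNontrivial i.1
  have hpw : Pairwise fun i j => ¬ (v i).IsEquiv (v j) := by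
    intro i j hij heq
    exact hij (Subtype.ext (eq_of_pabv_isEquiv heq))
  obtain ⟨a, ha1, ha2⟩ :=
    AbsoluteValue.exists_one_lt_lt_one_pi_of_not_isEquiv hnt hpw ⟨w, hw⟩
  refine ⟨a, (one_lt_pabv_iff w a).mp ha1, fun w' hw' hne => ?_⟩
  exact (pabv_lt_one_iff w' a).mp (ha2 ⟨w', hw'⟩ (fun h => hne (congrArg Subtype.val h)))

theorem exp_one_le_of_one_lt {x : ℤᵐ⁰} (h : 1 < x) : exp (1 : ℤ) ≤ x := by
  have hx : x ≠ 0 := fun h0 => by simp [h0] at h
  rw [← exp_log hx] at h ⊢
  rw [← exp_zero, exp_lt_exp] at h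
  exact exp_le_exp.mpr (by omega)

theorem le_exp_neg_one_of_lt_one {x : ℤᵐ⁰} (h : x < 1) : x ≤ exp (-1 : ℤ) := by
  rcases eq_or_ne x 0 with rfl | hx
  · exact zero_le
  rw [← exp_log hx] at h ⊢
  rw [← exp_zero, exp_lt_exp] at h
  exact exp_le_exp.mpr (by omega)

/-- Bump functions: `g ≡ 1` to order `N` at `w`, `g ≡ 0` to order `N` at the other places of
`S`. -/
theorem exists_bump (S : Finset (Place K F)) (w : Place K F) (hw : w ∈ S) (N : ℕ) :
    ∃ g : F, w.adicValuation (g - 1) ≤ exp (-(N : ℤ)) ∧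
      ∀ w' ∈ S, w' ≠ w → w'.adicValuation g ≤ exp (-(N : ℤ)) := by
  obtain ⟨a, ha1, ha2⟩ := exists_separating S w hw
  set M : ℕ := N + 1 with hM
  have hMN : exp (-(M : ℤ)) ≤ (exp (-(N : ℤ)) : ℤᵐ⁰) := exp_le_exp.mpr (by rw [hM]; push_cast; omega)
  -- at `w`
  have hwa : exp ((M : ℤ)) ≤ w.adicValuation (a ^ M) := by
    rw [map_pow]
    calc exp ((M : ℤ)) = (exp (1 : ℤ)) ^ M := by rw [← exp_nsmul]; simp
      _ ≤ w.adicValuation a ^ M := pow_le_pow_left₀ zero_le (exp_one_le_of_one_lt ha1) M
  have hw1 : (1 : ℤᵐ⁰) < w.adicValuation (a ^ M) :=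
    lt_of_lt_of_le (by rw [← exp_zero]; exact exp_lt_exp.mpr (by rw [hM]; push_cast; omega)) hwa
  have hsum : w.adicValuation (a ^ M + 1) = w.adicValuation (a ^ M) := by
    apply Valuation.map_add_eq_of_lt_left
    rwa [map_one]
  have hne : a ^ M + 1 ≠ 0 := by
    intro h0
    rw [h0, map_zero] at hsum
    rw [← hsum] at hw1
    exact not_lt.mpr zero_le hw1
  refine ⟨a ^ M / (a ^ M + 1), ?_, ?_⟩
  · have : a ^ M / (a ^ M + 1) - 1 = -(a ^ M + 1)⁻¹ := by
      field_simp
      ring
    rw [this, Valuation.map_neg, map_inv₀, hsum]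
    refine le_trans ?_ hMN
    rw [exp_neg]
    exact inv_anti₀ (exp_pos) hwa
  · intro w' hw' hne'
    have h1 : w'.adicValuation (a ^ M) ≤ exp (-(M : ℤ)) := by
      rw [map_pow]
      calc w'.adicValuation a ^ M ≤ (exp (-1 : ℤ)) ^ M :=
            pow_le_pow_left₀ zero_le (le_exp_neg_one_of_lt_one (ha2 w' hw' hne')) M
        _ = exp (-(M : ℤ)) := by rw [← exp_nsmul]; simp
    have h2 : w'.adicValuation (a ^ M) < 1 :=
      lt_of_le_of_lt h1 (by rw [← exp_zero]; exact exp_lt_exp.mpr (by rw [hM]; push_cast; omega))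
    have hsum' : w'.adicValuation (a ^ M + 1) = 1 := by
      rw [add_comm]
      have := Valuation.map_add_eq_of_lt_left w'.adicValuation (x := (1 : F)) (y := a ^ M)
        (by rwa [map_one])
      rwa [map_one] at this
    rw [map_div₀, hsum', div_one]
    exact le_trans h1 hMN

/-- **Weak approximation** for finitely many places. -/
theorem exists_approx (S : Finset (Place K F)) (y : Place K F → F) (r : ℤ) :
    ∃ z : F, ∀ w ∈ S, w.adicValuation (z - y w) ≤ exp (-r) := by
  classical
  -- a uniform bound for the valuations of the targets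
  obtain ⟨C, hC⟩ : ∃ C : ℤ, ∀ k ∈ S, ∀ i ∈ S, k.adicValuation (y i) ≤ exp C := by
    have key : ∀ T : Finset (Place K F × Place K F),
        ∃ C : ℤ, ∀ q ∈ T, q.1.adicValuation (y q.2) ≤ exp C := by
      intro T
      induction T using Finset.induction_on with
      | empty => exact ⟨0, fun q hq => absurd hq (Finset.notMem_empty q)⟩
      | insert q T _ ih =>
        obtain ⟨C, hC⟩ := ih
        by_cases h0 : q.1.adicValuation (y q.2) = 0
        · refine ⟨C, fun q' hq' => ?_⟩
          rcases Finset.mem_insert.mp hq' with rfl | h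
          · rw [h0]; exact zero_le
          · exact hC q' h
        · refine ⟨max C (log (q.1.adicValuation (y q.2))), fun q' hq' => ?_⟩
          rcases Finset.mem_insert.mp hq' with rfl | h
          · conv_lhs => rw [← exp_log h0]
            exact exp_le_exp.mpr (le_max_right _ _)
          · exact (hC q' h).trans (exp_le_exp.mpr (le_max_left _ _))
    obtain ⟨C, hC⟩ := key (S ×ˢ S)
    exact ⟨C, fun k hk i hi => hC (k, i) (Finset.mem_product.mpr ⟨hk, hi⟩)⟩
  set N : ℕ := (C + r).toNat with hN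
  have hNle : C - (N : ℤ) ≤ -r := by
    have := Int.self_le_toNat (C + r)
    omega
  choose! g hg1 hg2 using fun w hw => exists_bump S w hw N
  refine ⟨∑ i ∈ S, y i * g i, fun k hk => ?_⟩
  have hdecomp : ∑ i ∈ S, y i * g i - y k
      = y k * (g k - 1) + ∑ i ∈ S.erase k, y i * g i := by
    rw [← Finset.add_sum_erase S _ hk]
    ring
  rw [hdecomp]
  have hbound : (exp C * exp (-(N : ℤ)) : ℤᵐ⁰) ≤ exp (-r) := by
    rw [← exp_add]
    exact exp_le_exp.mpr (by omega)
  refine le_trans (Valuation.map_add _ _ _) (max_le ?_ ?_)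
  · rw [map_mul]
    exact le_trans (mul_le_mul' (hC k hk k hk) (hg1 k hk)) hbound
  · apply Valuation.map_sum_le
    intro i hi
    have hi' := Finset.mem_erase.mp hi
    rw [map_mul]
    exact le_trans (mul_le_mul' (hC k hk i hi'.2) (hg2 i hi'.2 k hk (Ne.symm hi'.1))) hbound

end Fermat.Agent.S18.FFDeg6
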