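/-
helper6 — S18 [FF]-DEG, part 2: Stichtenoth Prop. 1.3.3, char-free.

For `x ∈ F` transcendental over `K` with `[F : K(x)] < ∞`, finitely many places `w ∈ S` with
`w.adicValuation x = exp (-(e w))` and, for each of them, `f w` elements of `O_w` which are
`K`-independent modulo `m_w`:   `∑ w ∈ S, e w * f w ≤ [F : K(x)]`.
-/
import Mathlib
import Fermat.Agent.S18.FFDeg6.WA

set_option autoImplicit false

namespace Fermat.Agent.S18.FFDeg6

open AlgebraicCurve WithZero IsDedekindDomain Polynomial IntermediateField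

variable {K F : Type*} [Field K] [Field F] [Algebra K F]

theorem aeval_mem_valuationSubring (w : Place K F) {x : F} (hx : x ∈ w.toValuationSubring)
    (Q : K[X]) : aeval x Q ∈ w.toValuationSubring := by
  have h1 : aeval x Q ∈ Algebra.adjoin K {x} := aeval_mem_adjoin_singleton K x
  have h2 : Algebra.adjoin K {x} ≤ Fermat.Agent.S24.FFPlaces.valSubalgebra w :=
    Algebra.adjoin_le (Set.singleton_subset_iff.mpr hx)
  exact h2 h1

theorem adicValuation_algebraMap_smul_le (w : Place K F) (c : K) (y : F) :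
    w.adicValuation (c • y) ≤ w.adicValuation y := by
  rw [Algebra.smul_def, map_mul]
  exact mul_le_of_le_one_left' (w.adicValuation_algebraMap_le_one c)

/-- Core independence lemma: a finite family in `⋂_{w ∈ S} O_w` whose `K`-combinations never lie
in `x O_w` for all `w ∈ S` simultaneously is linearly independent over `K[x]`. -/
theorem linearIndependent_adjoin_of_residue {x : F} (hx : Transcendental K x)
    (S : Finset (Place K F)) (hS : ∀ w ∈ S, x ∈ w.toValuationSubring)
    {ι : Type*} [Fintype ι] (b : ι → F) (hb : ∀ i, ∀ w ∈ S, b i ∈ w.toValuationSubring)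
    (hres : ∀ κ : ι → K, κ ≠ 0 →
      ∃ w ∈ S, ¬ (w.adicValuation (∑ i, κ i • b i) ≤ w.adicValuation x)) :
    LinearIndependent (Algebra.adjoin K {x}) b := by
  classical
  have hx0 : x ≠ 0 := fun h => hx (h ▸ isAlgebraic_zero)
  -- constant terms of a polynomial relation vanish
  have hconst : ∀ P : ι → K[X], ∑ i, aeval x (P i) * b i = 0 → ∀ i, (P i).coeff 0 = 0 := by
    intro P hsum
    have hκ : (fun i => (P i).coeff 0) = 0 := by
      by_contra hne
      obtain ⟨w, hw, hnot⟩ := hres _ hne
      apply hnot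
      have hrel : ∑ i, (P i).coeff 0 • b i = -(x * ∑ i, aeval x (P i).divX * b i) := by
        rw [eq_neg_iff_add_eq_zero, Finset.mul_sum, ← Finset.sum_add_distrib, ← hsum]
        refine Finset.sum_congr rfl fun i _ => ?_
        conv_rhs => rw [← divX_mul_X_add (P i)]
        rw [map_add, map_mul, aeval_X, aeval_C, Algebra.smul_def]
        ring
      rw [hrel, Valuation.map_neg, map_mul]
      refine mul_le_of_le_one_right' ?_
      apply Valuation.map_sum_le
      intro i _
      rw [map_mul]
      exact mul_le_one'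
        ((Fermat.Agent.S24.FFPlaces.adicValuation_le_one_iff w _).mpr
          (aeval_mem_valuationSubring w (hS w hw) _))
        ((Fermat.Agent.S24.FFPlaces.adicValuation_le_one_iff w _).mpr (hb i w hw))
    exact fun i => congrFun hκ i
  -- polynomial form, by induction on a degree bound
  have key : ∀ n : ℕ, ∀ P : ι → K[X], (∀ i, (P i).natDegree ≤ n) →
      ∑ i, aeval x (P i) * b i = 0 → ∀ i, P i = 0 := by
    intro n
    induction n with
    | zero =>
      intro P hP hsum i
      rw [eq_C_of_natDegree_eq_zero (Nat.le_zero.mp (hP i)), hconst P hsum i, map_zero]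
    | succ n ih =>
      intro P hP hsum i
      have hc := hconst P hsum
      have hPX : ∀ i, P i = (P i).divX * X := fun i => by
        conv_lhs => rw [← divX_mul_X_add (P i), hc i, map_zero, add_zero]
      have hsum' : ∑ i, aeval x (P i).divX * b i = 0 := by
        have : x * ∑ i, aeval x (P i).divX * b i = 0 := by
          rw [← hsum, Finset.mul_sum]
          refine Finset.sum_congr rfl fun i _ => ?_
          conv_rhs => rw [hPX i]
          rw [map_mul, aeval_X]
          ring
        exact (mul_eq_zero.mp this).resolve_left hx0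
      have hdeg : ∀ i, (P i).divX.natDegree ≤ n := by
        intro i
        rw [natDegree_divX_eq_natDegree_tsub_one]
        have := hP i
        omega
      rw [hPX i, ih _ hdeg hsum' i, zero_mul]
  rw [Fintype.linearIndependent_iff]
  intro g hg i
  -- write each coefficient as a polynomial in `x`
  have hpoly : ∀ i, ∃ P : K[X], aeval x P = (g i : F) := fun i => by
    have h1 : (g i : F) ∈ (aeval x : K[X] →ₐ[K] F).range := by
      rw [← Algebra.adjoin_singleton_eq_range_aeval]
      exact (g i).2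
    exact h1
  choose P hP using hpoly
  have hsum : ∑ i, aeval x (P i) * b i = 0 := by
    rw [← hg]
    refine Finset.sum_congr rfl fun i _ => ?_
    rw [hP i]
    rfl
  have hbound : ∀ i, (P i).natDegree ≤ Finset.univ.sup fun i => (P i).natDegree :=
    fun i => Finset.le_sup (f := fun i => (P i).natDegree) (Finset.mem_univ i)
  have := key _ P hbound hsum i
  apply Subtype.ext
  rw [← hP i, this, map_zero]
  rfl

open scoped IntermediateField.algebraAdjoinAdjoin in
theorem card_le_finrank_of_residue {x : F} (hx : Transcendental K x) [FiniteDimensional K⟮x⟯ F]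
    (S : Finset (Place K F)) (hS : ∀ w ∈ S, x ∈ w.toValuationSubring)
    {ι : Type*} [Fintype ι] (b : ι → F) (hb : ∀ i, ∀ w ∈ S, b i ∈ w.toValuationSubring)
    (hres : ∀ κ : ι → K, κ ≠ 0 →
      ∃ w ∈ S, ¬ (w.adicValuation (∑ i, κ i • b i) ≤ w.adicValuation x)) :
    Fintype.card ι ≤ Module.finrank K⟮x⟯ F := by
  have h1 := linearIndependent_adjoin_of_residue hx S hS b hb hres
  have h2 : LinearIndependent K⟮x⟯ b :=
    (LinearIndependent.iff_fractionRing (Algebra.adjoin K {x}) K⟮x⟯).mp h1
  exact h2.fintype_card_le_finrank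

/-- `s` is `K`-linearly independent modulo the maximal ideal of `w`. -/
def IndepMod (w : Place K F) {f : ℕ} (s : Fin f → F) : Prop :=
  ∀ c : Fin f → K, w.adicValuation (∑ j, c j • s j) < 1 → c = 0

theorem adicValuation_sum_smul_le_one (w : Place K F) {f : ℕ} (s : Fin f → F)
    (hs : ∀ j, s j ∈ w.toValuationSubring) (c : Fin f → K) :
    w.adicValuation (∑ j, c j • s j) ≤ 1 := by
  apply Valuation.map_sum_le
  intro j _
  exact (adicValuation_algebraMap_smul_le w _ _).trans
    ((Fermat.Agent.S24.FFPlaces.adicValuation_le_one_iff w _).mpr (hs j))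

/-- Local independence: `π ^ a * s j` (`a < e`) are `K`-independent modulo `π ^ e`. -/
theorem local_indep (w : Place K F) {π : F} (hπ : w.adicValuation π = exp (-1 : ℤ)) {f : ℕ}
    (s : Fin f → F) (hs : ∀ j, s j ∈ w.toValuationSubring) (hind : IndepMod w s) :
    ∀ (e : ℕ) (κ : ℕ → Fin f → K),
      w.adicValuation (∑ a ∈ Finset.range e, π ^ a * ∑ j, κ a j • s j) ≤ exp (-(e : ℤ)) →
      ∀ a < e, κ a = 0 := by
  intro e
  induction e with
  | zero => intro κ _ a ha; exact absurd ha (Nat.not_lt_zero _)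
  | succ e ih =>
    intro κ hκ
    have hπ1 : w.adicValuation π < 1 := by
      rw [hπ, ← exp_zero]; exact exp_lt_exp.mpr (by norm_num)
    have hrest : w.adicValuation (∑ a ∈ Finset.range e, π ^ a * ∑ j, κ (a + 1) j • s j) ≤ 1 := by
      apply Valuation.map_sum_le
      intro a _
      rw [map_mul, map_pow]
      exact mul_le_one' (pow_le_one₀ zero_le hπ1.le) (adicValuation_sum_smul_le_one w s hs _)
    have hsplit : ∑ a ∈ Finset.range (e + 1), π ^ a * ∑ j, κ a j • s j
        = ∑ j, κ 0 j • s j + π * ∑ a ∈ Finset.range e, π ^ a * ∑ j, κ (a + 1) j • s j := by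
      have h2 : ∑ a ∈ Finset.range e, π ^ (a + 1) * ∑ j, κ (a + 1) j • s j
          = π * ∑ a ∈ Finset.range e, π ^ a * ∑ j, κ (a + 1) j • s j := by
        rw [Finset.mul_sum]
        exact Finset.sum_congr rfl fun a _ => by ring
      rw [Finset.sum_range_succ', h2, pow_zero, one_mul, add_comm]
    rw [hsplit] at hκ
    have htot1 : w.adicValuation (∑ j, κ 0 j • s j +
        π * ∑ a ∈ Finset.range e, π ^ a * ∑ j, κ (a + 1) j • s j) < 1 :=
      lt_of_le_of_lt hκ (by rw [← exp_zero]; exact exp_lt_exp.mpr (by push_cast; omega))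
    have h0 : κ 0 = 0 := by
      apply hind
      have : ∑ j, κ 0 j • s j = (∑ j, κ 0 j • s j +
          π * ∑ a ∈ Finset.range e, π ^ a * ∑ j, κ (a + 1) j • s j) -
          π * ∑ a ∈ Finset.range e, π ^ a * ∑ j, κ (a + 1) j • s j := by ring
      rw [this]
      refine lt_of_le_of_lt (Valuation.map_sub _ _ _) (max_lt htot1 ?_)
      rw [map_mul]
      exact lt_of_le_of_lt (mul_le_of_le_one_right' hrest) hπ1
    have hzero : ∑ j, κ 0 j • s j = 0 := by simp [h0]
    rw [hzero, zero_add, map_mul, hπ] at hκ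
    have hIH : w.adicValuation (∑ a ∈ Finset.range e, π ^ a * ∑ j, κ (a + 1) j • s j)
        ≤ exp (-(e : ℤ)) := by
      have h1 : (exp (1 : ℤ) : ℤᵐ⁰) * (exp (-1 : ℤ) *
          w.adicValuation (∑ a ∈ Finset.range e, π ^ a * ∑ j, κ (a + 1) j • s j))
          ≤ exp (1 : ℤ) * exp (-((e + 1 : ℕ) : ℤ)) := mul_le_mul_right hκ _
      rw [← mul_assoc, ← exp_add, ← exp_add] at h1
      simpa using h1
    have := ih (fun a => κ (a + 1)) hIH
    intro a ha
    rcases Nat.eq_zero_or_pos a with rfl | hpos
    · exact h0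
    · obtain ⟨a', rfl⟩ := Nat.exists_eq_succ_of_ne_zero hpos.ne'
      exact this a' (by omega)

/-- **Stichtenoth 1.3.3**, char-free. -/
theorem sum_mul_le_finrank {x : F} (hx : Transcendental K x) [FiniteDimensional K⟮x⟯ F]
    (S : Finset (Place K F)) (e f : Place K F → ℕ)
    (he : ∀ w ∈ S, w.adicValuation x = exp (-(e w : ℤ)))
    (s : ∀ w : Place K F, Fin (f w) → F) (hs : ∀ w ∈ S, ∀ j, s w j ∈ w.toValuationSubring)
    (hind : ∀ w ∈ S, IndepMod w (s w)) :
    ∑ w ∈ S, e w * f w ≤ Module.finrank K⟮x⟯ F := by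
  classical
  have huni : ∀ w : Place K F, ∃ π : F, w.adicValuation π = exp (-1 : ℤ) := fun w => by
    obtain ⟨π, hπ⟩ := IsDiscreteValuationRing.exists_irreducible w.toValuationSubring
    exact ⟨π, w.adicValuation_coe_irreducible hπ⟩
  choose π hπ using huni
  have hπ1 : ∀ w : Place K F, w.adicValuation (π w) ≤ 1 := fun w => by
    rw [hπ, ← exp_zero]; exact exp_le_exp.mpr (by norm_num)
  set r : ℕ := S.sup e with hr
  have hrx : ∀ w ∈ S, exp (-(r : ℤ)) ≤ w.adicValuation x := fun w hw => by
    rw [he w hw]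
    refine exp_le_exp.mpr ?_
    have := Finset.le_sup (f := e) hw
    omega
  have hr1 : (exp (-(r : ℤ)) : ℤᵐ⁰) ≤ 1 := by
    rw [← exp_zero]; exact exp_le_exp.mpr (by omega)
  have hS : ∀ w ∈ S, x ∈ w.toValuationSubring := fun w hw => by
    rw [← Fermat.Agent.S24.FFPlaces.adicValuation_le_one_iff, he w hw, ← exp_zero]
    exact exp_le_exp.mpr (by omega)
  let ι := Σ w : {w // w ∈ S}, Fin (e w.1) × Fin (f w.1)
  let y : ι → Place K F → F := fun i w' =>
    if w' = i.1.1 then π i.1.1 ^ (i.2.1 : ℕ) * s i.1.1 i.2.2 else 0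
  have hy1 : ∀ (i : ι) (w' : Place K F), w'.adicValuation (y i w') ≤ 1 := by
    intro i w'
    by_cases h : w' = i.1.1
    · simp only [y, if_pos h]
      rw [h, map_mul, map_pow]
      exact mul_le_one' (pow_le_one₀ zero_le (hπ1 _))
        ((Fermat.Agent.S24.FFPlaces.adicValuation_le_one_iff _ _).mpr (hs _ i.1.2 _))
    · simp only [y, if_neg h, map_zero]
      exact zero_le
  choose b hbapprox using fun i => exists_approx S (y i) r
  have hb : ∀ i, ∀ w ∈ S, b i ∈ w.toValuationSubring := by
    intro i w hw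
    rw [← Fermat.Agent.S24.FFPlaces.adicValuation_le_one_iff]
    have : b i = (b i - y i w) + y i w := by ring
    rw [this]
    exact le_trans (Valuation.map_add _ _ _)
      (max_le ((hbapprox i w hw).trans hr1) (hy1 i w))
  have hcard : Fintype.card ι = ∑ w ∈ S, e w * f w := by
    simp only [ι, Fintype.card_sigma, Fintype.card_prod, Fintype.card_fin]
    exact Finset.sum_coe_sort S (fun w => e w * f w)
  rw [← hcard]
  refine card_le_finrank_of_residue hx S hS b hb ?_
  intro κ hκ
  obtain ⟨i₀, hi₀⟩ := Function.ne_iff.mp hκ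
  refine ⟨i₀.1.1, i₀.1.2, fun hle => hi₀ ?_⟩
  set k := i₀.1 with hk
  -- split off the approximation error
  have hD : k.1.adicValuation (∑ i, κ i • (b i - y i k.1)) ≤ k.1.adicValuation x := by
    refine le_trans ?_ (hrx k.1 k.2)
    apply Valuation.map_sum_le
    intro i _
    exact (adicValuation_algebraMap_smul_le _ _ _).trans (hbapprox i k.1 k.2)
  have hY : k.1.adicValuation (∑ i, κ i • y i k.1) ≤ exp (-(e k.1 : ℤ)) := by
    rw [← he k.1 k.2]
    have : ∑ i, κ i • y i k.1 = ∑ i, κ i • b i - ∑ i, κ i • (b i - y i k.1) := by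
      rw [← Finset.sum_sub_distrib]
      refine Finset.sum_congr rfl fun i _ => ?_
      rw [smul_sub]; ring
    rw [this]
    exact le_trans (Valuation.map_sub _ _ _) (max_le hle hD)
  -- rewrite the sum over the fibre of `k`
  let κ' : ℕ → Fin (f k.1) → K := fun a j =>
    if h : a < e k.1 then κ ⟨k, (⟨a, h⟩, j)⟩ else 0
  have hYeq : ∑ i, κ i • y i k.1
      = ∑ a ∈ Finset.range (e k.1), π k.1 ^ a * ∑ j, κ' a j • s k.1 j := by
    rw [← Fin.sum_univ_eq_sum_range (fun a => π k.1 ^ a * ∑ j, κ' a j • s k.1 j) (e k.1)]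
    rw [Fintype.sum_sigma]
    rw [Fintype.sum_eq_single k]
    · rw [Fintype.sum_prod_type]
      refine Finset.sum_congr rfl fun a _ => ?_
      rw [Finset.mul_sum]
      refine Finset.sum_congr rfl fun j _ => ?_
      simp only [y, κ', if_true, dif_pos a.2, Fin.eta]
      rw [mul_smul_comm]
    · intro w hw
      refine Finset.sum_eq_zero fun p _ => ?_
      have : k.1 ≠ w.1 := fun h => hw (Subtype.ext h.symm)
      simp only [y, if_neg this, smul_zero]
  rw [hYeq] at hY
  have hloc := local_indep k.1 (hπ k.1) (s k.1) (hs k.1 k.2) (hind k.1 k.2) (e k.1) κ' hY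
  have h1 := hloc i₀.2.1 i₀.2.1.2
  have h2 := congrFun h1 i₀.2.2
  simp only [κ', Fin.eta, Pi.zero_apply] at h2
  rw [dif_pos (show (i₀.2.1 : ℕ) < e k.1 from i₀.2.1.2)] at h2
  exact h2

end Fermat.Agent.S18.FFDeg6
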