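/-
helper6 — S18 [FF]-DEG, part 3: consequences of Stichtenoth 1.3.3 (char-free).

For `x` transcendental over `K` with `[F : K(x)] < ∞`:
* `residue_bound` : a zero `w` of `x` has finite residue field and `e * deg w ≤ [F : K(x)]`;
* `finite_zeros`, `finite_poles` : finitely many zeros / poles;
* `sum_ord_mul_deg_le` : `∑_{w ∈ S} ord_w x * deg w ≤ [F : K(x)]` for every finite set `S` of zeros.
-/
import Mathlib
import Fermat.Agent.S18.FFDeg6.Indep

set_option autoImplicit false

namespace Fermat.Agent.S18.FFDeg6

open AlgebraicCurve WithZero IsDedekindDomain Polynomial IntermediateField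

variable {K F : Type*} [Field K] [Field F] [Algebra K F]

theorem coe_smul_valuationSubring (w : Place K F) (c : K) (a : w.toValuationSubring) :
    ((c • a : w.toValuationSubring) : F) = c • (a : F) := by
  rw [Algebra.smul_def, Algebra.smul_def]
  rfl

theorem coe_sum_smul_valuationSubring (w : Place K F) {f : ℕ} (c : Fin f → K)
    (a : Fin f → w.toValuationSubring) :
    ((∑ j, c j • a j : w.toValuationSubring) : F) = ∑ j, c j • (a j : F) := by
  rw [← ValuationSubring.subtype_apply, map_sum]
  refine Finset.sum_congr rfl fun j _ => ?_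
  rw [ValuationSubring.subtype_apply, coe_smul_valuationSubring]

theorem residue_smul (w : Place K F) (c : K) (a : w.toValuationSubring) :
    IsLocalRing.residue w.toValuationSubring (c • a) =
      c • IsLocalRing.residue w.toValuationSubring a := rfl

/-- Lifting a `K`-independent family of the residue field to `O_w`. -/
theorem exists_indepMod_of_linearIndependent (w : Place K F) {f : ℕ}
    (t : Fin f → w.ResidueField) (ht : LinearIndependent K t) :
    ∃ s : Fin f → F, (∀ j, s j ∈ w.toValuationSubring) ∧ IndepMod w s := by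
  choose s' hs' using fun j => IsLocalRing.residue_surjective (t j)
  refine ⟨fun j => (s' j : F), fun j => (s' j).2, ?_⟩
  intro c hc
  rw [← coe_sum_smul_valuationSubring, ← Fermat.Agent.S24.FFPlaces.mem_maximalIdeal_iff,
    ← IsLocalRing.residue_eq_zero_iff, map_sum] at hc
  have hc' : ∑ j, c j • t j = 0 := by
    rw [← hc]
    refine Finset.sum_congr rfl fun j _ => ?_
    rw [residue_smul, hs']
  exact funext fun j => (Fintype.linearIndependent_iff.mp ht c hc' j)

/-- The constant family `1` is independent modulo `m_w`. -/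
theorem indepMod_one (w : Place K F) : IndepMod w (fun _ : Fin 1 => (1 : F)) := by
  intro c hc
  funext j
  by_contra hne
  have hj : j = 0 := Subsingleton.elim _ _
  subst hj
  simp only [Finset.univ_unique, Fin.default_eq_zero, Finset.sum_singleton] at hc
  have h1 : w.adicValuation (c 0 • (1 : F)) * w.adicValuation ((c 0)⁻¹ • (1 : F)) = 1 := by
    rw [← map_mul, smul_mul_smul_comm, mul_inv_cancel₀ hne, one_mul, one_smul, map_one]
  have h2 : w.adicValuation ((c 0)⁻¹ • (1 : F)) ≤ 1 := by
    rw [Algebra.smul_def, mul_one]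
    exact w.adicValuation_algebraMap_le_one _
  have : (1 : ℤᵐ⁰) < 1 := by
    calc (1 : ℤᵐ⁰) = w.adicValuation (c 0 • (1 : F)) * w.adicValuation ((c 0)⁻¹ • (1 : F)) := h1.symm
      _ ≤ w.adicValuation (c 0 • (1 : F)) * 1 := mul_le_mul_right h2 _
      _ < 1 := by rwa [mul_one]
  exact lt_irrefl _ this

/-- A zero `w` of a transcendental `x` with `[F : K(x)] < ∞` has finite residue field, and
`e * deg w ≤ [F : K(x)]`. -/
theorem residue_bound (w : Place K F) {x : F} (hx : Transcendental K x)
    [FiniteDimensional K⟮x⟯ F] {e : ℕ} (he1 : 1 ≤ e)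
    (hval : w.adicValuation x = exp (-(e : ℤ))) :
    Module.Finite K w.ResidueField ∧ e * w.deg ≤ Module.finrank K⟮x⟯ F := by
  classical
  have key : ∀ (f : ℕ) (t : Fin f → w.ResidueField), LinearIndependent K t →
      e * f ≤ Module.finrank K⟮x⟯ F := by
    intro f t ht
    obtain ⟨s, hs, hind⟩ := exists_indepMod_of_linearIndependent w t ht
    have := sum_mul_le_finrank hx {w} (fun _ => e) (fun _ => f)
      (fun w' hw' => by rw [Finset.mem_singleton.mp hw']; exact hval)
      (fun _ => s) (fun w' hw' j => by rw [Finset.mem_singleton.mp hw']; exact hs j)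
      (fun w' hw' => by rw [Finset.mem_singleton.mp hw']; exact hind)
    simpa using this
  have hfin : Module.Finite K w.ResidueField := by
    rw [← Module.rank_lt_aleph0_iff]
    refine lt_of_le_of_lt (rank_le (n := Module.finrank K⟮x⟯ F) ?_) Cardinal.natCast_lt_aleph0
    intro s hs
    have hli : LinearIndependent K (fun j : Fin s.card => ((s.equivFin.symm j : s) : w.ResidueField)) :=
      hs.comp _ s.equivFin.symm.injective
    have := key s.card _ hli
    nlinarith
  refine ⟨hfin, ?_⟩
  have hb := Module.finBasis K w.ResidueField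
  exact key _ _ hb.linearIndependent

/-- At a zero of `x` the valuation is `exp (-e)` with `e = (ord x).toNat ≥ 1`. -/
theorem adicValuation_eq_of_lt_one (w : Place K F) {x : F} (hx0 : x ≠ 0)
    (h : w.adicValuation x < 1) :
    1 ≤ (w.ord x).toNat ∧ w.adicValuation x = exp (-((w.ord x).toNat : ℤ)) := by
  have hpos : 0 < w.ord x := (Fermat.Agent.S24.FFPlaces.ord_pos_iff w hx0).mpr h
  refine ⟨by omega, ?_⟩
  rw [w.adicValuation_eq_exp_neg_ord hx0, Int.toNat_of_nonneg hpos.le]

/-- **Upper bound** `∑_{w ∈ S} ord_w x * deg w ≤ [F : K(x)]` over any finite set of zeros. -/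
theorem sum_ord_mul_deg_le {x : F} (hx : Transcendental K x) [FiniteDimensional K⟮x⟯ F]
    (S : Finset (Place K F)) (hS : ∀ w ∈ S, w.adicValuation x < 1) :
    ∑ w ∈ S, (w.ord x).toNat * w.deg ≤ Module.finrank K⟮x⟯ F := by
  classical
  have hx0 : x ≠ 0 := fun h => hx (h ▸ isAlgebraic_zero)
  have hfin : ∀ w ∈ S, Module.Finite K w.ResidueField := fun w hw =>
    (residue_bound w hx (adicValuation_eq_of_lt_one w hx0 (hS w hw)).1
      (adicValuation_eq_of_lt_one w hx0 (hS w hw)).2).1
  -- choose independent families realising the degrees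
  have hfam : ∀ w : Place K F, ∃ s : Fin w.deg → F,
      w ∈ S → (∀ j, s j ∈ w.toValuationSubring) ∧ IndepMod w s := by
    intro w
    by_cases hw : w ∈ S
    · have := hfin w hw
      obtain ⟨s, hs1, hs2⟩ := exists_indepMod_of_linearIndependent w _
        (Module.finBasis K w.ResidueField).linearIndependent
      exact ⟨s, fun _ => ⟨hs1, hs2⟩⟩
    · exact ⟨fun _ => 0, fun h => absurd h hw⟩
  choose s hs using hfam
  exact sum_mul_le_finrank hx S (fun w => (w.ord x).toNat) (fun w => w.deg)
    (fun w hw => (adicValuation_eq_of_lt_one w hx0 (hS w hw)).2)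
    s (fun w hw => (hs w hw).1) (fun w hw => (hs w hw).2)

/-- Every finite set of zeros of `x` has at most `[F : K(x)]` elements. -/
theorem card_zeros_le {x : F} (hx : Transcendental K x) [FiniteDimensional K⟮x⟯ F]
    (S : Finset (Place K F)) (hS : ∀ w ∈ S, w.adicValuation x < 1) :
    S.card ≤ Module.finrank K⟮x⟯ F := by
  classical
  have hx0 : x ≠ 0 := fun h => hx (h ▸ isAlgebraic_zero)
  have := sum_mul_le_finrank hx S (fun w => (w.ord x).toNat) (fun _ => 1)
    (fun w hw => (adicValuation_eq_of_lt_one w hx0 (hS w hw)).2)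
    (fun _ _ => 1) (fun w _ _ => w.toValuationSubring.one_mem) (fun w _ => indepMod_one w)
  refine le_trans ?_ this
  rw [Finset.card_eq_sum_ones]
  refine Finset.sum_le_sum fun w hw => ?_
  have := (adicValuation_eq_of_lt_one w hx0 (hS w hw)).1
  omega

/-- The zeros of a transcendental `x` with `[F : K(x)] < ∞` form a finite set. -/
theorem finite_zeros {x : F} (hx : Transcendental K x) [FiniteDimensional K⟮x⟯ F] :
    {w : Place K F | w.adicValuation x < 1}.Finite := by
  by_contra hinf
  obtain ⟨t, ht, hcard⟩ :=
    Set.Infinite.exists_subset_card_eq hinf (Module.finrank K⟮x⟯ F + 1)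
  have := card_zeros_le hx t (fun w hw => ht hw)
  omega

/-- The poles of a transcendental `x` with `[F : K(x)] < ∞` form a finite set. -/
theorem finite_poles {x : F} (hx : Transcendental K x) [FiniteDimensional K⟮x⟯ F] :
    {w : Place K F | 1 < w.adicValuation x}.Finite := by
  have hx0 : x ≠ 0 := fun h => hx (h ▸ isAlgebraic_zero)
  have hinv : Transcendental K x⁻¹ := fun h => hx (by simpa using h.inv)
  have heq : K⟮x⁻¹⟯ = K⟮x⟯ := Fermat.Agent.S24.FFPlaces.adjoin_simple_inv x
  have : FiniteDimensional K⟮x⁻¹⟯ F := by rw [heq]; infer_instance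
  have := finite_zeros (K := K) (F := F) hinv
  refine this.subset fun w hw => ?_
  simp only [Set.mem_ofPred_eq, map_inv₀] at hw ⊢
  exact inv_lt_one_of_one_lt₀ hw

end Fermat.Agent.S18.FFDeg6
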